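/-
Cell A3 (S19/S32), work package **W6alg** (linear algebra over a local / valuation ring),
producer: helper375.        Mathlib only.

Contents (everything over an arbitrary commutative ring unless said otherwise):

* `det_bord` : the **universal bordered determinant**
    `det [[A, b], [cᵀ, x]] = x * det A - cᵀ adj(A) b`   (no invertibility hypothesis).
* `bordMinor G r c i j`, `BordVanish G r c` : bordered minors around a pivot `P = G[r, c]`;
  `det_smul_eq_of_bordVanish` : `det P • G = G[·, c] * adj P * G[r, ·]` (universal Cramer);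
  `eq_mul_inv_mul_of_bordVanish` : `G = G[·, c] * P⁻¹ * G[r, ·]` when `det P` is a unit.
* `IsPivot G r c` (unit pivot = "constant rank"): stable under base change (`IsPivot.map`);
  kernel cut out by the pivot rows (`mulVec_eq_zero_iff`); image = fixed points of the projector
  `proj` (`mem_range_iff`), spanned by the pivot columns, which are independent
  (`col_injective`); the image is saturated (`saturated`); kernels commute with base change
  (`kproj_map`, `exists_ker_lift`); over a field the rank is `|ι|` (`rank_eq`).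
* `exists_maximal_pivot` : every matrix over a nontrivial ring has a maximal nonvanishing minor.
* `exists_isPivot_of_rank_le` : **local constant-rank theorem**: `𝒪` local ring inside a field
  `K`, residue field `k`; if `rank_K G ≤ rank_k G` then `G` has a unit pivot.
-/
import Mathlib

set_option autoImplicit false

namespace Fermat.Agent.S19.H375

open Matrix

variable {R : Type*} [CommRing R] {ι : Type*} [Fintype ι] [DecidableEq ι]

/-- the bordered matrix `[[A, b], [cᵀ, x]]`. -/
def bord (A : Matrix ι ι R) (b c : ι → R) (x : R) : Matrix (ι ⊕ Unit) (ι ⊕ Unit) R :=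
  fromBlocks A (replicateCol Unit b) (replicateRow Unit c) (Matrix.of fun _ _ => x)

lemma bord_map {S : Type*} [CommRing S] (f : R →+* S) (A : Matrix ι ι R) (b c : ι → R) (x : R) :
    f.mapMatrix (bord A b c x) = bord (f.mapMatrix A) (f ∘ b) (f ∘ c) (f x) := by
  ext (i | i) (j | j) <;> rfl

/-- the bordered determinant when `det A` is regular. -/
lemma det_bord_of_isLeftRegular (A : Matrix ι ι R) (b c : ι → R) (x : R)
    (hA : IsLeftRegular A.det) :
    (bord A b c x).det = x * A.det - c ⬝ᵥ (A.adjugate *ᵥ b) := by
  have hMF : bord A b c x *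
      fromBlocks (A.det • (1 : Matrix ι ι R)) (-replicateCol Unit (A.adjugate *ᵥ b)) 0
        (A.det • (1 : Matrix Unit Unit R)) =
      fromBlocks (A.det • A) 0 (A.det • replicateRow Unit c)
        (Matrix.of fun _ _ => x * A.det - c ⬝ᵥ (A.adjugate *ᵥ b)) := by
    unfold bord
    rw [fromBlocks_multiply]
    congr 1
    · simp
    · ext i j
      have h1 : (A *ᵥ (A.adjugate *ᵥ b)) i = A.det * b i := by
        rw [mulVec_mulVec, mul_adjugate, smul_mulVec, one_mulVec]
        rfl
      have h2 : (A * replicateCol Unit (A.adjugate *ᵥ b)) i j = (A *ᵥ (A.adjugate *ᵥ b)) i := by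
        simp [Matrix.mul_apply, mulVec, dotProduct]
      simp only [Matrix.mul_neg, Matrix.add_apply, Matrix.neg_apply, Matrix.zero_apply,
        Matrix.mul_smul, Matrix.mul_one, Matrix.smul_apply, replicateCol_apply, smul_eq_mul,
        h2, h1]
      ring
    · simp
    · ext i j
      have h2 : (replicateRow Unit c * replicateCol Unit (A.adjugate *ᵥ b)) i j =
          c ⬝ᵥ (A.adjugate *ᵥ b) := by
        simp [Matrix.mul_apply, dotProduct]
      simp only [Matrix.mul_neg, Matrix.add_apply, Matrix.neg_apply, Matrix.mul_smul,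
        Matrix.mul_one, Matrix.smul_apply, of_apply, smul_eq_mul, h2]
      ring
  have hY : (Matrix.of fun _ _ : Unit => x * A.det - c ⬝ᵥ (A.adjugate *ᵥ b)).det =
      x * A.det - c ⬝ᵥ (A.adjugate *ᵥ b) := by
    rw [det_unique]
    rfl
  have hdet := congrArg Matrix.det hMF
  rw [det_mul, det_fromBlocks_zero₂₁, det_fromBlocks_zero₁₂, det_smul, det_smul, det_smul,
    det_one, det_one, hY] at hdet
  simp only [Fintype.card_unit, pow_one, mul_one] at hdet
  have hreg : IsLeftRegular (A.det ^ Fintype.card ι * A.det) := (hA.pow _).mul hA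
  apply hreg
  simp only
  rw [← hdet]
  ring

/-- **Universal bordered determinant** (no invertibility hypothesis):
`det [[A, b], [cᵀ, x]] = x * det A - cᵀ adj(A) b`. -/
theorem det_bord (A : Matrix ι ι R) (b c : ι → R) (x : R) :
    (bord A b c x).det = x * A.det - c ⬝ᵥ (A.adjugate *ᵥ b) := by
  let g : Matrix ι ι R → Matrix ι ι (Polynomial R) := fun M =>
    M.map Polynomial.C + (Polynomial.X : Polynomial R) • (1 : Matrix ι ι (Polynomial R))
  let f : Polynomial R →+* R := Polynomial.evalRingHom 0
  have hg : f.mapMatrix (g A) = A := by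
    ext
    simp [f, g]
  have hu : IsRegular (g A).det := by
    refine Polynomial.Monic.isRegular ?_
    simp only [g, Polynomial.Monic.def, ← Polynomial.leadingCoeff_det_X_one_add_C A, add_comm]
  have key := det_bord_of_isLeftRegular (g A) (Polynomial.C ∘ b) (Polynomial.C ∘ c)
    (Polynomial.C x) hu.left
  have hfb : (f ∘ (Polynomial.C ∘ b)) = b := by
    funext i
    simp [f]
  have hfc : (f ∘ (Polynomial.C ∘ c)) = c := by
    funext i
    simp [f]
  have hfx : f (Polynomial.C x) = x := by simp [f]
  have hmv : f ∘ ((g A).adjugate *ᵥ (Polynomial.C ∘ b)) = A.adjugate *ᵥ b := by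
    funext i
    change f (((g A).adjugate *ᵥ (Polynomial.C ∘ b)) i) = _
    rw [RingHom.map_mulVec, hfb, ← RingHom.mapMatrix_apply, RingHom.map_adjugate, hg]
  have h2 := congrArg f key
  rw [RingHom.map_det, bord_map, hg, hfb, hfc, hfx, map_sub, map_mul, hfx, RingHom.map_det, hg,
    RingHom.map_dotProduct, hfc, hmv] at h2
  exact h2

/-! ## Rank factorization around a pivot -/

section Pivot

variable {m n : Type*}

/-- the bordered minor of `G` at the pivot `(r, c)` with extra row `i` and extra column `j`. -/
def bordMinor (G : Matrix m n R) (r : ι → m) (c : ι → n) (i : m) (j : n) : R :=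
  (G.submatrix (Sum.elim r fun _ : Unit => i) (Sum.elim c fun _ : Unit => j)).det

/-- all bordered minors around the pivot `(r, c)` vanish ("rank `≤ |ι|` near the pivot"). -/
def BordVanish (G : Matrix m n R) (r : ι → m) (c : ι → n) : Prop :=
  ∀ i j, bordMinor G r c i j = 0

lemma bordMinor_eq (G : Matrix m n R) (r : ι → m) (c : ι → n) (i : m) (j : n) :
    bordMinor G r c i j = G i j * (G.submatrix r c).det -
      (fun k => G i (c k)) ⬝ᵥ ((G.submatrix r c).adjugate *ᵥ fun k => G (r k) j) := by
  have h : G.submatrix (Sum.elim r fun _ : Unit => i) (Sum.elim c fun _ : Unit => j) =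
      bord (G.submatrix r c) (fun k => G (r k) j) (fun k => G i (c k)) (G i j) := by
    ext (a | a) (b | b) <;> rfl
  rw [bordMinor, h, det_bord]

lemma bordMinor_map {S : Type*} [CommRing S] (f : R →+* S) (G : Matrix m n R) (r : ι → m)
    (c : ι → n) (i : m) (j : n) :
    bordMinor (G.map f) r c i j = f (bordMinor G r c i j) := by
  unfold bordMinor
  rw [RingHom.map_det]
  rfl

lemma BordVanish.map {S : Type*} [CommRing S] (f : R →+* S) {G : Matrix m n R} {r : ι → m}
    {c : ι → n} (h : BordVanish G r c) : BordVanish (G.map f) r c := by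
  intro i j
  rw [bordMinor_map, h i j, map_zero]

/-- **Universal rank factorization**: if all bordered minors around the pivot `P = G[r, c]`
vanish, then `det P • G = G[·, c] * adj P * G[r, ·]`. -/
theorem det_smul_eq_of_bordVanish {G : Matrix m n R} {r : ι → m} {c : ι → n}
    (h : BordVanish G r c) :
    (G.submatrix r c).det • G =
      G.submatrix id c * (G.submatrix r c).adjugate * G.submatrix r id := by
  ext i j
  have h1 := h i j
  rw [bordMinor_eq, sub_eq_zero] at h1
  rw [Matrix.smul_apply, smul_eq_mul, mul_comm, h1, Matrix.mul_apply]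
  simp only [dotProduct, mulVec, Matrix.mul_apply, submatrix_apply, id_eq, Finset.sum_mul,
    Finset.mul_sum]
  rw [Finset.sum_comm]
  refine Finset.sum_congr rfl fun k _ => Finset.sum_congr rfl fun l _ => ?_
  ring

/-- **Rank factorization with a unit pivot**: `G = G[·, c] * P⁻¹ * G[r, ·]`. -/
theorem eq_mul_inv_mul_of_bordVanish {G : Matrix m n R} {r : ι → m} {c : ι → n}
    (h : BordVanish G r c) (hu : IsUnit (G.submatrix r c).det) :
    G = G.submatrix id c * (G.submatrix r c)⁻¹ * G.submatrix r id := by
  have h1 := det_smul_eq_of_bordVanish h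
  rw [Matrix.inv_def, Matrix.mul_smul, Matrix.smul_mul, ← h1, smul_smul,
    Ring.inverse_mul_cancel _ hu, one_smul]

end Pivot

/-! ## Existence of a maximal pivot -/

section MaxPivot

variable {m n : Type*} [Fintype m] [Fintype n]

omit [Fintype n] in
/-- Over a nontrivial commutative ring every matrix has a maximal nonvanishing minor: a pivot
`(r, c)` with nonzero determinant all of whose bordered minors vanish. -/
theorem exists_maximal_pivot {F : Type*} [CommRing F] [Nontrivial F] (G : Matrix m n F) :
    ∃ (e : ℕ) (r : Fin e → m) (c : Fin e → n),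
      (G.submatrix r c).det ≠ 0 ∧ BordVanish G r c := by
  classical
  let Q : ℕ → Prop := fun e => ∃ (r : Fin e → m) (c : Fin e → n), (G.submatrix r c).det ≠ 0
  have hQ0 : Q 0 := ⟨Fin.elim0, Fin.elim0, by simp⟩
  have hbound : ∀ e, Q e → e ≤ Fintype.card m := by
    rintro e ⟨r, c, hdet⟩
    by_contra hlt
    have hlt' : Fintype.card m < Fintype.card (Fin e) := by
      rw [Fintype.card_fin]
      omega
    obtain ⟨a, b, hab, hrab⟩ := Fintype.exists_ne_map_eq_of_card_lt r hlt'
    apply hdet
    refine Matrix.det_zero_of_row_eq hab ?_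
    funext j
    simp [hrab]
  have hex : ∃ e, Q e ∧ ∀ e', Q e' → e' ≤ e := by
    refine ⟨Nat.findGreatest Q (Fintype.card m), Nat.findGreatest_spec (Nat.zero_le _) hQ0,
      fun e' he' => Nat.le_findGreatest (hbound e' he') he'⟩
  obtain ⟨e, ⟨r, c, hdet⟩, hmax⟩ := hex
  refine ⟨e, r, c, hdet, ?_⟩
  intro i j
  by_contra hne
  let eq : Fin (e + 1) ≃ Fin e ⊕ Unit := finSumFinEquiv.symm.trans (Equiv.sumCongr (Equiv.refl _) finOneEquiv)
  have hQ : Q (e + 1) := by
    refine ⟨(Sum.elim r fun _ : Unit => i) ∘ eq, (Sum.elim c fun _ : Unit => j) ∘ eq, ?_⟩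
    have : G.submatrix ((Sum.elim r fun _ : Unit => i) ∘ eq) ((Sum.elim c fun _ : Unit => j) ∘ eq) =
        (G.submatrix (Sum.elim r fun _ : Unit => i) (Sum.elim c fun _ : Unit => j)).submatrix eq eq :=
      rfl
    rw [this, Matrix.det_submatrix_equiv_self]
    exact hne
  have := hmax (e + 1) hQ
  omega

end MaxPivot

/-! ## Unit pivots -/

section UnitPivot

variable {m n : Type*}

/-- `(r, c)` is a **unit pivot** of `G`: the minor `G[r, c]` is a unit and all bordered minors
vanish.  (Equivalently: `G` has "constant rank `|ι|`", with `G[r, c]` an invertible block.) -/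
structure IsPivot (G : Matrix m n R) (r : ι → m) (c : ι → n) : Prop where
  isUnit : IsUnit (G.submatrix r c).det
  bordVanish : BordVanish G r c

namespace IsPivot

variable {G : Matrix m n R} {r : ι → m} {c : ι → n}

lemma map {S : Type*} [CommRing S] (f : R →+* S) (hp : IsPivot G r c) :
    IsPivot (G.map f) r c := by
  refine ⟨?_, hp.bordVanish.map f⟩
  have h : (G.map f).submatrix r c = f.mapMatrix (G.submatrix r c) := rfl
  rw [h, ← RingHom.map_det]
  exact hp.isUnit.map f

lemma factor (hp : IsPivot G r c) :
    G = G.submatrix id c * (G.submatrix r c)⁻¹ * G.submatrix r id :=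
  eq_mul_inv_mul_of_bordVanish hp.bordVanish hp.isUnit

variable [Fintype n]

lemma mulVec_eq (hp : IsPivot G r c) (w : n → R) :
    G *ᵥ w = G.submatrix id c *ᵥ ((G.submatrix r c)⁻¹ *ᵥ (G.submatrix r id *ᵥ w)) := by
  conv_lhs => rw [hp.factor]
  rw [mulVec_mulVec, mulVec_mulVec]

omit [Fintype ι] [DecidableEq ι] in
lemma submatrix_mulVec (G : Matrix m n R) (r : ι → m) (w : n → R) :
    G.submatrix r id *ᵥ w = (G *ᵥ w) ∘ r := by
  funext k
  rfl

/-- the kernel of `G` is cut out by the pivot rows. -/
lemma mulVec_eq_zero_iff (hp : IsPivot G r c) (w : n → R) :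
    G *ᵥ w = 0 ↔ G.submatrix r id *ᵥ w = 0 := by
  constructor
  · intro h
    rw [submatrix_mulVec, h]
    rfl
  · intro h
    rw [hp.mulVec_eq, h, mulVec_zero, mulVec_zero]

/-- the projector onto the column space of `G` along `{v | v ∘ r = 0}`. -/
noncomputable def proj (G : Matrix m n R) (r : ι → m) (c : ι → n) (v : m → R) : m → R :=
  G.submatrix id c *ᵥ ((G.submatrix r c)⁻¹ *ᵥ (v ∘ r))

omit [Fintype n] in
lemma proj_smul (a : R) (v : m → R) : proj G r c (a • v) = a • proj G r c v := by
  unfold proj
  have : (a • v) ∘ r = a • (v ∘ r) := rfl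
  rw [this, mulVec_smul, mulVec_smul]

omit [Fintype n] [DecidableEq ι] in
lemma submatrix_col_mulVec_comp (G : Matrix m n R) (r : ι → m) (c : ι → n) (u : ι → R) :
    (G.submatrix id c *ᵥ u) ∘ r = G.submatrix r c *ᵥ u := by
  funext k
  rfl

omit [Fintype n] in
lemma proj_comp (hp : IsPivot G r c) (v : m → R) : (proj G r c v) ∘ r = v ∘ r := by
  unfold proj
  rw [submatrix_col_mulVec_comp, mulVec_mulVec, Matrix.mul_nonsing_inv _ hp.isUnit, one_mulVec]

lemma proj_mulVec (hp : IsPivot G r c) (w : n → R) : proj G r c (G *ᵥ w) = G *ᵥ w := by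
  unfold proj
  rw [← submatrix_mulVec, ← hp.mulVec_eq]

variable [DecidableEq n]

/-- extension of a vector on the pivot columns by zero (summing over fibres of `c`). -/
def ext0 (c : ι → n) (u : ι → R) : n → R := fun j => ∑ k, if c k = j then u k else 0

omit [DecidableEq ι] in
lemma mulVec_ext0 (G : Matrix m n R) (c : ι → n) (u : ι → R) :
    G *ᵥ ext0 c u = G.submatrix id c *ᵥ u := by
  funext i
  simp only [mulVec, dotProduct, ext0, submatrix_apply, id_eq, Finset.mul_sum]
  rw [Finset.sum_comm]
  refine Finset.sum_congr rfl fun k _ => ?_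
  simp

/-- **Column space**: `v` is in the image of `G` iff `v` is reproduced by the projector, iff it is
a combination of the pivot columns. -/
lemma mem_range_iff (hp : IsPivot G r c) (v : m → R) :
    (∃ w, G *ᵥ w = v) ↔ proj G r c v = v := by
  constructor
  · rintro ⟨w, rfl⟩
    exact hp.proj_mulVec w
  · intro h
    refine ⟨ext0 c ((G.submatrix r c)⁻¹ *ᵥ (v ∘ r)), ?_⟩
    rw [mulVec_ext0]
    exact h

/-- **Saturation**: the column space of a matrix with a unit pivot is saturated. -/
lemma saturated (hp : IsPivot G r c) {a : R} (ha : IsSMulRegular R a) {v : m → R}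
    (h : ∃ w, G *ᵥ w = a • v) : ∃ w, G *ᵥ w = v := by
  rw [hp.mem_range_iff] at h ⊢
  rw [proj_smul] at h
  funext i
  have := congrFun h i
  exact ha this

/-- the projector onto the kernel of `G` along the pivot columns. -/
noncomputable def kproj (G : Matrix m n R) (r : ι → m) (c : ι → n) (w : n → R) : n → R :=
  w - ext0 c ((G.submatrix r c)⁻¹ *ᵥ (G.submatrix r id *ᵥ w))

lemma mulVec_kproj (hp : IsPivot G r c) (w : n → R) : G *ᵥ kproj G r c w = 0 := by
  rw [hp.mulVec_eq_zero_iff]
  unfold kproj
  rw [mulVec_sub, mulVec_ext0]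
  have : (G.submatrix r id).submatrix id c = G.submatrix r c := rfl
  rw [this, mulVec_mulVec, Matrix.mul_nonsing_inv _ hp.isUnit, one_mulVec, sub_self]

lemma kproj_of_mulVec_eq_zero (hp : IsPivot G r c) {w : n → R} (h : G *ᵥ w = 0) :
    kproj G r c w = w := by
  unfold kproj
  rw [(hp.mulVec_eq_zero_iff w).1 h, mulVec_zero]
  have : ext0 c (0 : ι → R) = 0 := by
    funext j
    simp [ext0]
  rw [this, sub_zero]

omit [Fintype n] [DecidableEq n] in
lemma inv_map {S : Type*} [CommRing S] (f : R →+* S) (hp : IsPivot G r c) :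
    ((G.map f).submatrix r c)⁻¹ = ((G.submatrix r c)⁻¹).map f := by
  refine Matrix.inv_eq_right_inv ?_
  have h1 : (G.map f).submatrix r c = (G.submatrix r c).map f := rfl
  rw [h1, ← Matrix.map_mul, Matrix.mul_nonsing_inv _ hp.isUnit]
  exact Matrix.map_one f (map_zero f) (map_one f)

omit [DecidableEq ι] [Fintype n] in
lemma ext0_map {S : Type*} [CommRing S] (f : R →+* S) (u : ι → R) :
    ext0 c (f ∘ u) = f ∘ ext0 c u := by
  funext j
  simp only [ext0, Function.comp_apply, map_sum]
  refine Finset.sum_congr rfl fun k _ => ?_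
  split_ifs <;> simp

omit [Fintype ι] [DecidableEq ι] [DecidableEq n] in
lemma map_mulVec' {S : Type*} [CommRing S] (f : R →+* S) {l : Type*} (A : Matrix l n R)
    (w : n → R) : (A.map f) *ᵥ (f ∘ w) = f ∘ (A *ᵥ w) := by
  funext i
  exact (RingHom.map_mulVec f A w i).symm

/-- the kernel projector commutes with base change. -/
lemma kproj_map {S : Type*} [CommRing S] (f : R →+* S) (hp : IsPivot G r c) (w : n → R) :
    kproj (G.map f) r c (f ∘ w) = f ∘ kproj G r c w := by
  unfold kproj
  have h2 : (G.map f).submatrix r id = (G.submatrix r id).map f := rfl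
  rw [hp.inv_map f, h2, map_mulVec', map_mulVec', ext0_map]
  funext j
  simp

/-- **Kernels commute with base change** (lifting form): along a surjective ring homomorphism,
every element of the kernel of the image matrix lifts to the kernel of `G`. -/
theorem exists_ker_lift {S : Type*} [CommRing S] (f : R →+* S) (hf : Function.Surjective f)
    (hp : IsPivot G r c) {w' : n → S} (h : (G.map f) *ᵥ w' = 0) :
    ∃ w : n → R, G *ᵥ w = 0 ∧ f ∘ w = w' := by
  choose w₀ hw₀ using fun j => hf (w' j)
  have hw₀' : f ∘ w₀ = w' := funext hw₀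
  refine ⟨kproj G r c w₀, hp.mulVec_kproj w₀, ?_⟩
  rw [← hp.kproj_map f, hw₀']
  exact (hp.map f).kproj_of_mulVec_eq_zero h

omit [Fintype n] [DecidableEq n] in
/-- the pivot columns are linearly independent. -/
lemma col_injective (hp : IsPivot G r c) {u : ι → R} (h : G.submatrix id c *ᵥ u = 0) : u = 0 := by
  have h1 : G.submatrix r c *ᵥ u = 0 := by
    rw [← submatrix_col_mulVec_comp, h]
    rfl
  have h2 := congrArg (fun v => (G.submatrix r c)⁻¹ *ᵥ v) h1
  simp only [mulVec_mulVec, Matrix.nonsing_inv_mul _ hp.isUnit, one_mulVec, mulVec_zero] at h2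
  exact h2

omit [Fintype n] [DecidableEq n] in
lemma injective_row [Nontrivial R] (hp : IsPivot G r c) : Function.Injective r := by
  intro a b hab
  by_contra hne
  have : (G.submatrix r c).det = 0 := by
    refine Matrix.det_zero_of_row_eq hne ?_
    funext j
    simp [hab]
  have h := hp.isUnit
  rw [this] at h
  exact not_isUnit_zero h

omit [Fintype n] [DecidableEq n] in
lemma injective_col [Nontrivial R] (hp : IsPivot G r c) : Function.Injective c := by
  intro a b hab
  by_contra hne
  have : (G.submatrix r c).det = 0 := by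
    refine Matrix.det_zero_of_column_eq hne ?_
    intro i
    simp [hab]
  have h := hp.isUnit
  rw [this] at h
  exact not_isUnit_zero h

end IsPivot

/-! ## Ranks over fields, and the local constant-rank theorem -/

section Rank

variable [Fintype m] [Fintype n]

omit [Fintype m] in
/-- over a field, a unit pivot computes the rank. -/
theorem IsPivot.rank_eq {F : Type*} [Field F] {G : Matrix m n F} {r : ι → m} {c : ι → n}
    (hp : IsPivot G r c) : G.rank = Fintype.card ι := by
  apply le_antisymm
  · have h1 : G.rank ≤ (G.submatrix id c).rank := by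
      conv_lhs => rw [hp.factor, Matrix.mul_assoc]
      exact Matrix.rank_mul_le_left _ _
    exact h1.trans (Matrix.rank_le_card_width _)
  · have h1 : (G.submatrix r c).rank = Fintype.card ι :=
      Matrix.rank_of_det_ne_zero hp.isUnit.ne_zero
    rw [← h1]
    exact Matrix.rank_submatrix_le G r c

omit [Fintype m] in
/-- over a field, a matrix of rank `≤ |ι|` has vanishing bordered minors around any `ι`-pivot. -/
theorem bordVanish_of_rank_le {F : Type*} [Field F] (G : Matrix m n F) (r : ι → m) (c : ι → n)
    (h : G.rank ≤ Fintype.card ι) : BordVanish G r c := by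
  intro i j
  by_contra hne
  have h1 : (G.submatrix (Sum.elim r fun _ : Unit => i) (Sum.elim c fun _ : Unit => j)).rank =
      Fintype.card (ι ⊕ Unit) := Matrix.rank_of_det_ne_zero hne
  have h2 := Matrix.rank_submatrix_le G (Sum.elim r fun _ : Unit => i)
    (Sum.elim c fun _ : Unit => j)
  rw [h1, Fintype.card_sum, Fintype.card_unit] at h2
  omega

/-- **Local constant-rank theorem.**  Let `𝒪` be a local ring embedded in a field `K`, with
residue field `k`.  If the rank of `G` over `K` is at most its rank over `k`, then `G` has a unit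
pivot (so its image and kernel are direct summands, commute with reduction, etc.). -/
theorem exists_isPivot_of_rank_le {𝒪 K : Type*} [CommRing 𝒪] [IsLocalRing 𝒪] [Field K]
    (φ : 𝒪 →+* K) (hφ : Function.Injective φ) (G : Matrix m n 𝒪)
    (h : (G.map φ).rank ≤ (G.map (IsLocalRing.residue 𝒪)).rank) :
    ∃ (e : ℕ) (r : Fin e → m) (c : Fin e → n), IsPivot G r c ∧
      (G.map φ).rank = e ∧ (G.map (IsLocalRing.residue 𝒪)).rank = e := by
  obtain ⟨e, r, c, hdet, hb⟩ := exists_maximal_pivot (G.map (IsLocalRing.residue 𝒪))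
  have hpk : IsPivot (G.map (IsLocalRing.residue 𝒪)) r c := ⟨isUnit_iff_ne_zero.2 hdet, hb⟩
  have hrk : (G.map (IsLocalRing.residue 𝒪)).rank = e := by
    rw [hpk.rank_eq, Fintype.card_fin]
  have hu : IsUnit (G.submatrix r c).det := by
    have h1 : (G.map (IsLocalRing.residue 𝒪)).submatrix r c =
        (IsLocalRing.residue 𝒪).mapMatrix (G.submatrix r c) := rfl
    rw [h1, ← RingHom.map_det] at hdet
    by_contra hnu
    exact hdet ((IsLocalRing.residue_eq_zero_iff _).2 ((IsLocalRing.mem_maximalIdeal _).2 hnu))
  have hbK : BordVanish (G.map φ) r c :=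
    bordVanish_of_rank_le _ r c (by rw [Fintype.card_fin]; exact h.trans hrk.le)
  have hbO : BordVanish G r c := by
    intro i j
    apply hφ
    rw [← bordMinor_map, hbK i j, map_zero]
  have hp : IsPivot G r c := ⟨hu, hbO⟩
  refine ⟨e, r, c, hp, ?_, hrk⟩
  rw [(hp.map φ).rank_eq, Fintype.card_fin]

end Rank

end UnitPivot

end Fermat.Agent.S19.H375
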